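import Mathlib
import Fermat.Agent.BR.Inst.Levels

/-!
# PROGRAMME I, node LEVEL-DESC (helper14), part 2: Galois-stable levels

Main dialect (`KS q S`, `FS N q S` of `BR/Inst/Levels`, `FKs N E` of `BR/Inst/FKCover`).

* `GalStable S` : the finite set `S ⊆ ℚ̄` is stable under `Gal(ℚ̄/ℚ)`; `exists_galStable`
  (cofinality), `GalStable.union`;
* `GalStable.map_mem_KS` : the coefficient field `K₀(S)` of a Galois-stable level is stable;
* `GalStable.gal_smul_mem_FKs` : the level field `F_S = K₀(S) · F_N` is stable under the arithmetic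
  Galois action;
* `FS_eq_FKs`.
-/

set_option autoImplicit false

noncomputable section

namespace Fermat.Agent.FF3.LevelDesc

open AlgebraicCurve ModularCurve Fermat.Agent.X0 Fermat.Agent.BR.Inst.Levels
  Fermat.Agent.BR.Inst.FKCover Fermat.Agent.BR.UnramCyclo Fermat.Agent.BR.UnramCycloTower

/-- the finite set `S` of constants is stable under `Gal(ℚ̄/ℚ)` -/
def GalStable (S : Finset Kb) : Prop := ∀ σ : Kb ≃ₐ[ℚ] Kb, ∀ x ∈ S, σ x ∈ S

/-- `ℚ̄` is integral over `ℚ`, for the `ℚ`-algebra structure in force -/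
theorem isIntegral_rat_Kb [inst : Algebra ℚ Kb] (x : Kb) : IsIntegral ℚ x := by
  have h : inst = AlgebraicClosure.instAlgebra ℚ := Subsingleton.elim _ _
  subst h
  exact (Algebra.IsAlgebraic.isAlgebraic x).isIntegral

/-- Galois-stable levels are cofinal -/
theorem exists_galStable (S : Finset Kb) : ∃ T : Finset Kb, S ⊆ T ∧ GalStable T := by
  classical
  refine ⟨S.biUnion fun x => ((minpoly ℚ x).aroots Kb).toFinset, ?_, ?_⟩
  · intro x hx
    rw [Finset.mem_biUnion]
    refine ⟨x, hx, ?_⟩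
    rw [Multiset.mem_toFinset, Polynomial.mem_aroots]
    exact ⟨minpoly.ne_zero (isIntegral_rat_Kb x), minpoly.aeval ℚ x⟩
  · intro σ y hy
    rw [Finset.mem_biUnion] at hy ⊢
    obtain ⟨x, hx, hy⟩ := hy
    refine ⟨x, hx, ?_⟩
    rw [Multiset.mem_toFinset, Polynomial.mem_aroots] at hy ⊢
    refine ⟨hy.1, ?_⟩
    have := Polynomial.aeval_algHom_apply (σ : Kb →ₐ[ℚ] Kb) y (minpoly ℚ x)
    rw [hy.2, map_zero] at this
    exact this

theorem GalStable.union [DecidableEq Kb] {S T : Finset Kb} (hS : GalStable S)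
    (hT : GalStable T) : GalStable (S ∪ T) := by
  intro σ x hx
  rcases Finset.mem_union.mp hx with h | h
  · exact Finset.mem_union_left _ (hS σ x h)
  · exact Finset.mem_union_right _ (hT σ x h)

/-- the base field `K₀ = ℚ(μ_{prime to q})` is stable under `Gal(ℚ̄/ℚ)` -/
theorem map_cycloField_le (q : ℕ) (σ : Kb ≃ₐ[ℚ] Kb) :
    (cycloField Kb q).map (σ : Kb →ₐ[ℚ] Kb) ≤ cycloField Kb q := by
  unfold cycloField
  rw [IntermediateField.adjoin_map]
  apply IntermediateField.adjoin.mono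
  rintro _ ⟨ζ, ⟨m, hm, hqm, hζ⟩, rfl⟩
  refine ⟨m, hm, hqm, ?_⟩
  show (σ ζ) ^ m = 1
  rw [← map_pow, hζ, map_one]

theorem GalStable.map_coeffField_le {S : Finset Kb} (hS : GalStable S) (q : ℕ)
    (σ : Kb ≃ₐ[ℚ] Kb) : (coeffField q S).map (σ : Kb →ₐ[ℚ] Kb) ≤ coeffField q S := by
  unfold coeffField
  rw [IntermediateField.map_sup]
  apply sup_le_sup (map_cycloField_le q σ)
  rw [IntermediateField.adjoin_map]
  apply IntermediateField.adjoin.mono
  rintro _ ⟨x, hx, rfl⟩
  exact hS σ x hx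

theorem GalStable.map_mem_KS_of_mem {S : Finset Kb} (hS : GalStable S) (q : ℕ)
    (σ : Kb ≃ₐ[ℚ] Kb) {x : Kb} (hx : x ∈ KS q S) : σ x ∈ KS q S := by
  rw [mem_KS_iff] at hx ⊢
  exact hS.map_coeffField_le q σ ⟨x, hx, rfl⟩

/-- the coefficient field of a Galois-stable level is stable under `Gal(ℚ̄/ℚ)` -/
theorem GalStable.map_mem_KS {S : Finset Kb} (hS : GalStable S) (q : ℕ) (σ : Kb ≃ₐ[ℚ] Kb)
    {x : Kb} : σ x ∈ KS q S ↔ x ∈ KS q S := by
  refine ⟨fun h => ?_, hS.map_mem_KS_of_mem q σ⟩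
  have := hS.map_mem_KS_of_mem q σ.symm h
  rwa [AlgEquiv.symm_apply_apply] at this

theorem GalStable.gal_smul_mem_FKs_of_mem {S : Finset Kb} (hS : GalStable S) (q N : ℕ)
    [NeZero N] (σ : Kb ≃ₐ[ℚ] Kb) {x : Fb N} (hx : x ∈ FKs N (KS q S)) :
    arithmeticGalois (modularFunctionFieldFull N) σ • x ∈ FKs N (KS q S) :=
  gal_smul_mem_FK (K' := ofSubfield (KS q S)) (N := N) (σ := σ)
    (fun _ hc => hS.map_mem_KS_of_mem q σ hc) hx

/-- the level field `F_S = K₀(S) · F_N` of a Galois-stable level is stable under the arithmetic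
Galois action -/
theorem GalStable.gal_smul_mem_FKs {S : Finset Kb} (hS : GalStable S) (q N : ℕ) [NeZero N]
    (σ : Kb ≃ₐ[ℚ] Kb) {x : Fb N} :
    arithmeticGalois (modularFunctionFieldFull N) σ • x ∈ FKs N (KS q S) ↔
      x ∈ FKs N (KS q S) := by
  refine ⟨fun h => ?_, hS.gal_smul_mem_FKs_of_mem q N σ⟩
  have := hS.gal_smul_mem_FKs_of_mem q N σ⁻¹ h
  rwa [map_inv, inv_smul_smul] at this

/-- `FS N q S` (the fraction field of the models `C_S`, hence of all the local rings `R_S` of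
`BR/Inst/Levels`) is `FKs N (KS q S)` -/
theorem FS_eq_FKs (N q : ℕ) [NeZero N] (S : Finset Kb) : FS N q S = FKs N (KS q S) := rfl

end Fermat.Agent.FF3.LevelDesc
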