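import Mathlib
import Fermat.Agent.FF3.LevelDesc.GalStable

/-!
# PROGRAMME I, node LEVEL-DESC (helper14), part 2': the level descent

`exists_level` : finitely many functions `T ⊆ F̄_N`, finitely many constants `C ⊆ ℚ̄` and a start
level `S₀`: there is a Galois-stable level `S ⊇ S₀` such that over EVERY level `S' ⊇ S` the
functions of `T` are rational (`∈ FKs N (KS q S')`), there is a primitive `n`-th root of unity in
`KS q S'`, and the constants of `C` are `n`-th powers in `KS q S'`.
-/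

set_option autoImplicit false

noncomputable section

namespace Fermat.Agent.FF3.LevelDesc

open AlgebraicCurve ModularCurve Fermat.Agent.X0 Fermat.Agent.BR.Inst.Levels
  Fermat.Agent.BR.Inst.FKCover

/-- **LEVEL DESCENT.** -/
theorem exists_level (N q : ℕ) [NeZero N] {n : ℕ} (hn : 0 < n) (T : Finset (Fb N))
    (C : Finset Kb) (S₀ : Finset Kb) :
    ∃ S : Finset Kb, S₀ ⊆ S ∧ GalStable S ∧ ∀ S' : Finset Kb, S ⊆ S' →
      (↑T : Set (Fb N)) ⊆ FKs N (KS q S') ∧ (∃ ζ ∈ KS q S', IsPrimitiveRoot ζ n) ∧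
        ∀ c ∈ C, ∃ r ∈ KS q S', r ^ n = c := by
  classical
  obtain ⟨S₁, hS₁⟩ := exists_finset_forall_subset_FKs (N := N) T
  have : NeZero n := ⟨hn.ne'⟩
  obtain ⟨ζ, hζ⟩ := HasEnoughRootsOfUnity.exists_primitiveRoot Kb n
  have hroot : ∀ c : Kb, ∃ r : Kb, r ^ n = c := fun c => IsAlgClosed.exists_pow_nat_eq c hn
  choose r hr using hroot
  obtain ⟨S, hS, hgal⟩ := exists_galStable (S₀ ∪ S₁ ∪ {ζ} ∪ C.image r)
  refine ⟨S, ?_, hgal, fun S' hS' => ⟨?_, ⟨ζ, ?_, hζ⟩, fun c hc => ⟨r c, ?_, hr c⟩⟩⟩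
  · intro x hx
    apply hS
    simp only [Finset.mem_union]
    exact Or.inl (Or.inl (Or.inl hx))
  · apply hS₁
    intro x hx
    apply subset_KS q S'
    apply Finset.mem_coe.mpr
    apply hS'
    apply hS
    simp only [Finset.mem_union]
    exact Or.inl (Or.inl (Or.inr (Finset.mem_coe.mp hx)))
  · apply subset_KS q S'
    apply Finset.mem_coe.mpr
    apply hS'
    apply hS
    simp only [Finset.mem_union, Finset.mem_singleton]
    exact Or.inl (Or.inr trivial)
  · apply subset_KS q S'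
    apply Finset.mem_coe.mpr
    apply hS'
    apply hS
    simp only [Finset.mem_union]
    exact Or.inr (Finset.mem_image_of_mem r hc)

end Fermat.Agent.FF3.LevelDesc
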