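import Mathlib

/-!
# PROGRAMME I, node LEVEL-DESC (helper14), part 1: adic Newton for roots of one-units

Mathlib only, no topology.

* `exists_add_mul_eval_eq` : in a commutative ring `R` which is `w`-adically complete and separated
  (elementary form) the equation `y + w * Ψ(y) = z` has a solution for every polynomial `Ψ`;
* `exists_pow_eq_one_add_adic` (N1) : `1 + m² w z = (1 + m w y) ^ m` for some `y`;
* `IsAdicDVR Oh wh` : a valuation subring in which the non-units are the multiples of `wh`, and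
  which is `wh`-adically complete and separated; `IsAdicDVR.exists_pow_eq` (N3) : for a non-unit
  `q` and `n > 2k` the one-unit `1 + q^n z` is a `q^k`-th power;
* `exists_root_of_approx_adic` (N3') : THE BRIDGE A -> B in the dialect of L13: an approximate
  `q^k`-th power over `F₀` becomes an exact one in the completion `Lh`.
-/

set_option autoImplicit false

namespace Fermat.Agent.FF3.LevelDesc

open Polynomial

section Ring

variable {R : Type*} [CommRing R]

/-- the binomial expansion to second order, as a polynomial identity -/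
theorem exists_one_add_X_pow (R : Type*) [CommRing R] (m : ℕ) :
    ∃ Q : R[X], (1 + X) ^ m = 1 + C (m : R) * X + X ^ 2 * Q := by
  induction m with
  | zero => exact ⟨0, by simp⟩
  | succ m ih =>
    obtain ⟨Q, hQ⟩ := ih
    refine ⟨Q + C (m : R) + X * Q, ?_⟩
    rw [pow_succ, hQ]
    push_cast
    rw [C_add, C_1]
    ring

/-- the binomial expansion to second order, evaluated -/
theorem exists_one_add_pow (R : Type*) [CommRing R] (m : ℕ) :
    ∃ Q : R[X], ∀ a : R, (1 + a) ^ m = 1 + (m : R) * a + a ^ 2 * Q.eval a := by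
  obtain ⟨Q, hQ⟩ := exists_one_add_X_pow R m
  refine ⟨Q, fun a => ?_⟩
  have h := congrArg (Polynomial.eval a) hQ
  simpa using h

/-- **Fixed points of contractions**: in a `w`-adically complete and separated commutative ring the
equation `y + w * Ψ(y) = z` has a solution. -/
theorem exists_add_mul_eval_eq (w : R)
    (hcompl : ∀ f : ℕ → R, (∀ n, w ^ n ∣ f (n + 1) - f n) → ∃ y, ∀ n, w ^ n ∣ y - f n)
    (hsep : ∀ x : R, (∀ n, w ^ n ∣ x) → x = 0) (Ψ : R[X]) (z : R) :
    ∃ y : R, y + w * Ψ.eval y = z := by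
  -- the contraction `T y = z - w * Ψ(y)`
  set T : R → R := fun y => z - w * Ψ.eval y with hT
  have hlip : ∀ (n : ℕ) (a b : R), w ^ n ∣ a - b → w ^ (n + 1) ∣ T a - T b := by
    intro n a b hab
    have h1 : a - b ∣ Ψ.eval a - Ψ.eval b := Polynomial.sub_dvd_eval_sub a b Ψ
    obtain ⟨s, hs⟩ := hab.trans h1
    refine ⟨-s, ?_⟩
    have : T a - T b = -(w * (Ψ.eval a - Ψ.eval b)) := by simp only [hT]; ring
    rw [this, hs, pow_succ]
    ring
  set f : ℕ → R := fun n => T^[n] 0 with hf
  have hstep : ∀ n, w ^ n ∣ f (n + 1) - f n := by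
    intro n
    induction n with
    | zero => rw [pow_zero]; exact one_dvd _
    | succ n ih =>
      have e1 : f (n + 1 + 1) = T (f (n + 1)) := by
        simp only [hf]; rw [Function.iterate_succ_apply']
      have e2 : f (n + 1) = T (f n) := by
        simp only [hf]; rw [Function.iterate_succ_apply']
      rw [e1]
      nth_rewrite 2 [e2]
      exact hlip n _ _ ih
  obtain ⟨y, hy⟩ := hcompl f hstep
  refine ⟨y, ?_⟩
  have hfix : y - T y = 0 := by
    apply hsep
    intro n
    -- `y - T y = (y - f (n+1)) + (T (f n) - T y)`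
    have e2 : f (n + 1) = T (f n) := by
      simp only [hf]; rw [Function.iterate_succ_apply']
    have h1 : w ^ n ∣ y - f (n + 1) := (pow_dvd_pow w (Nat.le_succ n)).trans (hy (n + 1))
    have h2 : w ^ n ∣ T (f n) - T y := by
      have h3 : w ^ n ∣ f n - y := by
        have := hy n
        rw [← neg_sub] 
        exact (dvd_neg).mpr this
      exact (pow_dvd_pow w (Nat.le_succ n)).trans (hlip n _ _ h3)
    have e : y - T y = (y - f (n + 1)) + (T (f n) - T y) := by rw [e2]; ring
    rw [e]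
    exact dvd_add h1 h2
  have : y - (z - w * Ψ.eval y) = 0 := hfix
  linear_combination this

/-- (N1) **ADIC NEWTON.**  `R` a commutative ring, `w`-adically complete and separated in the
elementary sense.  Then `1 + m² w z` is the `m`-th power of an element `1 + m w y`. -/
theorem exists_pow_eq_one_add_adic (w : R)
    (hcompl : ∀ f : ℕ → R, (∀ n, w ^ n ∣ f (n + 1) - f n) → ∃ y, ∀ n, w ^ n ∣ y - f n)
    (hsep : ∀ x : R, (∀ n, w ^ n ∣ x) → x = 0) (m : ℕ) (z : R) :
    ∃ y : R, (1 + (m : R) * w * y) ^ m = 1 + (m : R) ^ 2 * w * z := by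
  obtain ⟨Q, hQ⟩ := exists_one_add_pow R m
  obtain ⟨y, hy⟩ := exists_add_mul_eval_eq w hcompl hsep
    (X ^ 2 * Q.comp (C ((m : R) * w) * X)) z
  refine ⟨y, ?_⟩
  rw [hQ, ← hy]
  simp only [eval_mul, eval_pow, eval_X, eval_comp, eval_C]
  ring

end Ring

/-! ### the dialect of L13 -/

/-- `Oh` is a valuation ring in which every non-unit is divisible by `wh`, and which is
`wh`-adically complete and separated (elementary form). -/
structure IsAdicDVR {Lh : Type*} [Field Lh] (Oh : ValuationSubring Lh) (wh : Oh) : Prop where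
  dvd_of_not_isUnit : ∀ x : Oh, ¬ IsUnit x → wh ∣ x
  complete : ∀ f : ℕ → Oh, (∀ n, wh ^ n ∣ f (n + 1) - f n) → ∃ y, ∀ n, wh ^ n ∣ y - f n
  separated : ∀ x : Oh, (∀ n, wh ^ n ∣ x) → x = 0

namespace IsAdicDVR

variable {Lh : Type*} [Field Lh] {Oh : ValuationSubring Lh} {wh : Oh}

theorem not_isUnit (h : IsAdicDVR Oh wh) : ¬ IsUnit wh := by
  intro hu
  have h1 : (1 : Oh) = 0 := h.separated 1 fun n => (hu.pow n).dvd
  exact one_ne_zero h1

/-- (N3) the one-unit `1 + q^n z` (`z` integral, `q` a non-unit, `n > 2k`) is a `q^k`-th power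
in `Oh`. -/
theorem exists_pow_eq (h : IsAdicDVR Oh wh) (q k n : ℕ) (hq : ¬ IsUnit (q : Oh))
    (hn : 2 * k < n) (z : Oh) :
    ∃ t : Oh, IsUnit t ∧ t ^ (q ^ k) = 1 + (q : Oh) ^ n * z := by
  obtain ⟨s, hs⟩ := h.dvd_of_not_isUnit _ hq
  obtain ⟨d, hd⟩ := Nat.exists_eq_add_of_lt hn
  -- `q ^ n = (q ^ k) ^ 2 * wh * (s * q ^ d)`
  have e : (q : Oh) ^ n = ((q ^ k : ℕ) : Oh) ^ 2 * wh * (s * (q : Oh) ^ d) := by
    rw [hd]
    push_cast
    calc (q : Oh) ^ (2 * k + d + 1) = ((q : Oh) ^ k) ^ 2 * (q : Oh) * (q : Oh) ^ d := by ring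
      _ = ((q : Oh) ^ k) ^ 2 * (wh * s) * (q : Oh) ^ d := by rw [← hs]
      _ = ((q : Oh) ^ k) ^ 2 * wh * (s * (q : Oh) ^ d) := by ring
  obtain ⟨y, hy⟩ := exists_pow_eq_one_add_adic wh h.complete h.separated (q ^ k)
    (s * (q : Oh) ^ d * z)
  refine ⟨1 + ((q ^ k : ℕ) : Oh) * wh * y, ?_, ?_⟩
  · by_contra hu
    have h1 : ((q ^ k : ℕ) : Oh) * wh * y ∈ nonunits Oh := by
      intro hc
      have : IsUnit (wh * (((q ^ k : ℕ) : Oh) * y)) := by
        have e' : ((q ^ k : ℕ) : Oh) * wh * y = wh * (((q ^ k : ℕ) : Oh) * y) := by ring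
        rwa [e'] at hc
      exact h.not_isUnit (isUnit_of_mul_isUnit_left this)
    have h2 : (1 + ((q ^ k : ℕ) : Oh) * wh * y) ∈ nonunits Oh := hu
    have h3 := IsLocalRing.nonunits_add h2 (show -(((q ^ k : ℕ) : Oh) * wh * y) ∈ nonunits Oh by
      intro hc; exact h1 (by simpa using hc.neg))
    apply h3
    have : (1 + ((q ^ k : ℕ) : Oh) * wh * y) + -(((q ^ k : ℕ) : Oh) * wh * y) = 1 := by ring
    rw [this]
    exact isUnit_one
  · rw [hy, e]
    ring

end IsAdicDVR

/-- (N3') **THE BRIDGE A -> B, adic dialect**: an approximate `q^k`-th power over `F₀` is an exact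
one in `Lh` (`Oh` the valuation ring of the completion, `q` a non-unit, precision `n > 2k`). -/
theorem exists_root_of_approx_adic {F₀ Lh : Type*} [Field F₀] [Field Lh]
    {Oh : ValuationSubring Lh} {wh : Oh} (h : IsAdicDVR Oh wh) (e : F₀ →+* Lh) (q k n : ℕ)
    (hq' : (e (q : F₀))⁻¹ ∉ Oh) (hn : 2 * k < n) {f u z c : F₀}
    (hz : e z ∈ Oh) (hu : c * u ^ (q ^ k) = f * (1 + (q : F₀) ^ n * z)) :
    ∃ w : Lh, e f = e c * w ^ (q ^ k) := by
  have hq : ¬ IsUnit (q : Oh) := by
    intro hunit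
    obtain ⟨v, hv⟩ := hunit.exists_right_inv
    apply hq'
    have h1 : ((q : Oh) : Lh) * (v : Lh) = 1 := by
      have := congrArg (fun x : Oh => (x : Lh)) hv
      simpa using this
    have h2 : (e (q : F₀))⁻¹ = (v : Lh) := by
      rw [map_natCast]
      have h3 : ((q : ℕ) : Lh) * (v : Lh) = 1 := by simpa using h1
      exact inv_eq_of_mul_eq_one_right h3
    rw [h2]
    exact v.2
  obtain ⟨t, ht, hpow⟩ := h.exists_pow_eq q k n hq hn ⟨e z, hz⟩
  have ht0 : (t : Lh) ≠ 0 := by
    intro h0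
    have : t = 0 := Subtype.ext h0
    rw [this] at ht
    exact not_isUnit_zero ht
  have hpow' : (t : Lh) ^ (q ^ k) = 1 + (q : Lh) ^ n * e z := by
    have := congrArg (fun x : Oh => (x : Lh)) hpow
    simpa using this
  refine ⟨e u / t, ?_⟩
  have h1 : e c * e u ^ (q ^ k) = e f * (t : Lh) ^ (q ^ k) := by
    rw [hpow']
    have := congrArg e hu
    simpa using this
  rw [div_pow, ← mul_div_assoc, h1, mul_div_assoc, div_self (pow_ne_zero _ ht0), mul_one]

end Fermat.Agent.FF3.LevelDesc
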