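import Mathlib
import Fermat.Agent.FF3.StepA.Defs
import Fermat.Agent.FF3.LevelDesc.Newton
import Fermat.Agent.FF3.LevelDesc.Levels
import Fermat.Agent.BR.GaloisTwo

/-!
# PROGRAMME I, node LEVEL-DESC (helper14), part 3: the bridge A -> B at a finite level

* `RatApprox O m n f S` : the level-`S` shadow of `StepA.ApproxPow` at ONE precision `n`, constants
  absorbed (`u ^ m = f * (1 + q ^ n * z)`, `u, z ∈ F_S = FKs (M*q) (KS q S)`, `z ∈ O`);
  `RatApprox.mono`, `RatApprox.mem_FKs`, `RatApprox.gal_smul`;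
* `exists_level_of_approxPow`, `exists_level_of_isTorSharpApprox` : `tor#` at a finite level
  (Galois-stable, cofinal, with a primitive `q^k`-th root of unity);
* `RatApprox.exists_root` : `f` is an EXACT `q^k`-th power in every adic completion
  `(Lh, Oh, emb)` of a level field `F₀ ⊇ F_S` at `O` (parameters: fits any `AnMod` / `DVCompl`
  instance);
* `natCast_mem_nonunits_O1`, `natCast_mem_nonunits_O2`;
* `ApproxPow.of_isRep` : independence of the representative.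
-/

set_option autoImplicit false
set_option linter.unusedSectionVars false
set_option synthInstance.maxHeartbeats 400000

noncomputable section

namespace Fermat.Agent.FF3.LevelDesc

open AlgebraicCurve ModularCurve IsLocalRing Fermat.Agent.X0 Fermat.Agent.BR.Inst.Levels
  Fermat.Agent.BR.Inst.FKCover Fermat.Agent.Red Fermat.Agent.Hecke Fermat.Agent.Jac
  Fermat.Agent.Val Fermat.Agent.BR Fermat.Agent.BR.TwoVal Fermat.Agent.BR.ValTwo
  Fermat.Agent.FF3.StepA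

variable {M q : ℕ} [NeZero M] [hq : Fact q.Prime]

/-- THE LEVEL-`S` SHADOW OF `ApproxPow` (constants absorbed: they are `m`-th powers at the level):
`u ^ m = f * (1 + q ^ n * z)` with `u, z` rational over the level `S`, `z ∈ O`. -/
def RatApprox (O : ValuationSubring (Fb (M * q))) (m n : ℕ) (f : Fb (M * q))
    (S : Finset Kb) : Prop :=
  ∃ u z : Fb (M * q), u ∈ FKs (M * q) (KS q S) ∧ z ∈ FKs (M * q) (KS q S) ∧ u ≠ 0 ∧ z ∈ O ∧
    u ^ m = f * (1 + (q : Fb (M * q)) ^ n * z)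

theorem RatApprox.mono {O : ValuationSubring (Fb (M * q))} {m n : ℕ} {f : Fb (M * q)}
    {S S' : Finset Kb} (hS : S ⊆ S') (h : RatApprox O m n f S) : RatApprox O m n f S' := by
  obtain ⟨u, z, hu, hz, hu0, hzO, he⟩ := h
  exact ⟨u, z, FKs_mono (KS_mono q hS) hu, FKs_mono (KS_mono q hS) hz, hu0, hzO, he⟩

theorem RatApprox.ne_zero {O : ValuationSubring (Fb (M * q))} {m n : ℕ} {f : Fb (M * q)}
    {S : Finset Kb} (h : RatApprox O m n f S) : f ≠ 0 := by
  obtain ⟨u, z, -, -, hu0, -, he⟩ := h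
  rintro rfl
  rw [zero_mul] at he
  exact pow_ne_zero _ hu0 he

/-- `1 + q ^ n * z ≠ 0` for `z ∈ O`, `q` a non-unit, `n > 0` -/
theorem one_add_ne_zero {O : ValuationSubring (Fb (M * q))}
    (hq1 : (q : Fb (M * q)) ∈ O.nonunits) {n : ℕ} (hn : 0 < n) {z : Fb (M * q)} (hz : z ∈ O) :
    1 + (q : Fb (M * q)) ^ n * z ≠ 0 := by
  intro h0
  have h1 : O.valuation ((q : Fb (M * q)) ^ n * z) < 1 := by
    rw [map_mul, map_pow]
    have hqv : O.valuation (q : Fb (M * q)) < 1 := (O.mem_nonunits_iff).mp hq1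
    have hzv : O.valuation z ≤ 1 := (O.valuation_le_one_iff z).mpr hz
    calc O.valuation (q : Fb (M * q)) ^ n * O.valuation z
        ≤ O.valuation (q : Fb (M * q)) ^ n * 1 := mul_le_mul_right hzv _
      _ = O.valuation (q : Fb (M * q)) ^ n := mul_one _
      _ < 1 := pow_lt_one₀ zero_le hqv hn.ne'
  have h2 : (q : Fb (M * q)) ^ n * z = -1 := by linear_combination h0
  rw [h2, Valuation.map_neg, map_one] at h1
  exact lt_irrefl _ h1

/-- a rational approximate power is rational -/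
theorem RatApprox.mem_FKs {O : ValuationSubring (Fb (M * q))} {m n : ℕ} {f : Fb (M * q)}
    {S : Finset Kb} (hq1 : (q : Fb (M * q)) ∈ O.nonunits) (hn : 0 < n)
    (h : RatApprox O m n f S) : f ∈ FKs (M * q) (KS q S) := by
  obtain ⟨u, z, hu, hz, hu0, hzO, he⟩ := h
  have h1 := one_add_ne_zero hq1 hn hzO
  have h2 : f = u ^ m * (1 + (q : Fb (M * q)) ^ n * z)⁻¹ := by
    rw [he, mul_assoc, mul_inv_cancel₀ h1, mul_one]
  rw [h2]
  exact mul_mem (pow_mem hu m)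
    (inv_mem (add_mem (one_mem _) (mul_mem (pow_mem (natCast_mem _ q) n) hz)))

/-- LEVEL DESCENT of `ApproxPow` at two valuation subrings, at ONE precision `n`. -/
theorem exists_level_of_approxPow {O₁ O₂ : ValuationSubring (Fb (M * q))} {m : ℕ} (hm : 0 < m)
    {f : Fb (M * q)} (h1 : ApproxPow (M := M) (q := q) O₁ m f)
    (h2 : ApproxPow (M := M) (q := q) O₂ m f) (n : ℕ) (S₀ : Finset Kb) :
    ∃ S : Finset Kb, S₀ ⊆ S ∧ GalStable S ∧ ∀ S' : Finset Kb, S ⊆ S' →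
      f ∈ FKs (M * q) (KS q S') ∧ (∃ ζ ∈ KS q S', IsPrimitiveRoot ζ m) ∧
        RatApprox O₁ m n f S' ∧ RatApprox O₂ m n f S' := by
  classical
  obtain ⟨c₁, u₁, hc₁, hu₁, z₁, hz₁, he₁⟩ := h1 n
  obtain ⟨c₂, u₂, hc₂, hu₂, z₂, hz₂, he₂⟩ := h2 n
  obtain ⟨S, hS₀, hgal, hS⟩ := exists_level (M * q) q hm ({f, u₁, z₁, u₂, z₂} : Finset (Fb (M * q)))
    ({c₁, c₂} : Finset Kb) S₀
  refine ⟨S, hS₀, hgal, fun S' hS' => ?_⟩
  obtain ⟨hT, hζ, hroots⟩ := hS S' hS'
  have hmem : ∀ y ∈ ({f, u₁, z₁, u₂, z₂} : Finset (Fb (M * q))), y ∈ FKs (M * q) (KS q S') :=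
    fun y hy => hT (Finset.mem_coe.mpr hy)
  have key : ∀ (O : ValuationSubring (Fb (M * q))) (c : Kb) (u z : Fb (M * q)), c ≠ 0 → u ≠ 0 →
      z ∈ O → c • u ^ m = f * (1 + (q : Fb (M * q)) ^ n * z) → c ∈ ({c₁, c₂} : Finset Kb) →
      u ∈ FKs (M * q) (KS q S') → z ∈ FKs (M * q) (KS q S') → RatApprox O m n f S' := by
    intro O c u z hc hu hz he hcC huF hzF
    obtain ⟨r, hr, hrc⟩ := hroots c hcC
    have hr0 : r ≠ 0 := by
      rintro rfl
      rw [zero_pow hm.ne'] at hrc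
      exact hc hrc.symm
    refine ⟨algebraMap Kb (Fb (M * q)) r * u, z, ?_, hzF, ?_, hz, ?_⟩
    · exact mul_mem (Subfield.subset_closure (Or.inl ⟨r, hr, rfl⟩)) huF
    · exact mul_ne_zero ((map_ne_zero _).mpr hr0) hu
    · rw [mul_pow, ← map_pow, hrc, ← Algebra.smul_def, he]
  refine ⟨hmem f (by simp), hζ, ?_, ?_⟩
  · exact key O₁ c₁ u₁ z₁ hc₁ hu₁ hz₁ he₁ (by simp) (hmem u₁ (by simp)) (hmem z₁ (by simp))
  · exact key O₂ c₂ u₂ z₂ hc₂ hu₂ hz₂ he₂ (by simp) (hmem u₂ (by simp)) (hmem z₂ (by simp))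

/-- **(3) `tor#` AT A FINITE LEVEL.** -/
theorem exists_level_of_isTorSharpApprox (B : ValuationSubring (AlgebraicClosure ℚ))
    [IsAlgClosed (ResidueField B)] [CharP (ResidueField B) q] (hB : B.LiesOverPrime q)
    (hqM : ¬ q ∣ M) (k : ℕ) {x : Pic0 Kb (Fb (M * q))}
    (hx : IsTorSharpApprox (B := B) (hB := hB) hqM (q ^ k) x) (n : ℕ) (S₀ : Finset Kb) :
    ∃ (D : Divisor.degZero (K := Kb) (F := Fb (M * q))) (f : Fb (M * q)),
      BR2.Filt.IsRep (q ^ k) x D f ∧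
      ∃ S : Finset Kb, S₀ ⊆ S ∧ GalStable S ∧ ∀ S' : Finset Kb, S ⊆ S' →
        f ∈ FKs (M * q) (KS q S') ∧ (∃ ζ ∈ KS q S', IsPrimitiveRoot ζ (q ^ k)) ∧
          RatApprox (O1 M B hB) (q ^ k) n f S' ∧ RatApprox (O2 B hB hqM) (q ^ k) n f S' := by
  obtain ⟨D, f, hR, h1, h2⟩ := hx
  exact ⟨D, f, hR, exists_level_of_approxPow (pow_pos hq.out.pos k) h1 h2 n S₀⟩

/-- **EXACT ROOTS IN THE COMPLETIONS.**  `F₀` any subfield of `F̄_{Mq}` containing the level
field `F_S`, `(Lh, Oh, emb)` any adic completion of `(F₀, O ∩ F₀)`: then `f` is an exact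
`q^k`-th power in `Lh`. -/
theorem RatApprox.exists_root {O : ValuationSubring (Fb (M * q))} {k n : ℕ} (hn : 2 * k < n)
    {f : Fb (M * q)} {S : Finset Kb} (h : RatApprox O (q ^ k) n f S)
    (hq1 : (q : Fb (M * q)) ∈ O.nonunits)
    (F₀ : Subfield (Fb (M * q))) (hF₀ : FKs (M * q) (KS q S) ≤ F₀)
    {Lh : Type*} [Field Lh] {Oh : ValuationSubring Lh} {wh : Oh} (hOh : IsAdicDVR Oh wh)
    (emb : F₀ →+* Lh) (emb_mem_iff : ∀ x : F₀, emb x ∈ Oh ↔ (x : Fb (M * q)) ∈ O)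
    (hfF : f ∈ F₀) : ∃ w : Lh, w ≠ 0 ∧ emb ⟨f, hfF⟩ = w ^ (q ^ k) := by
  have hf0 := h.ne_zero
  obtain ⟨u, z, hu, hz, hu0, hzO, he⟩ := h
  have hq0 : (q : Fb (M * q)) ≠ 0 := by
    have : ((q : ℕ) : Fb (M * q)) ≠ 0 := Nat.cast_ne_zero.mpr hq.out.ne_zero
    exact this
  have hq' : (emb ((q : ℕ) : F₀))⁻¹ ∉ Oh := by
    rw [← map_inv₀, emb_mem_iff]
    have : (((q : F₀)⁻¹ : F₀) : Fb (M * q)) = ((q : Fb (M * q)))⁻¹ := by
      push_cast
      rfl
    rw [this]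
    exact (Fermat.Agent.Val.mem_nonunits_iff_inv_notMem O hq0).mp hq1
  have hzh : emb ⟨z, hF₀ hz⟩ ∈ Oh := (emb_mem_iff _).mpr hzO
  have heq : (1 : F₀) * (⟨u, hF₀ hu⟩ : F₀) ^ (q ^ k) =
      ⟨f, hfF⟩ * (1 + ((q : ℕ) : F₀) ^ n * ⟨z, hF₀ hz⟩) := by
    apply Subtype.ext
    push_cast
    rw [one_mul]
    exact he
  obtain ⟨w, hw⟩ := exists_root_of_approx_adic hOh emb q k n hq' hn hzh heq
  rw [map_one, one_mul] at hw
  refine ⟨w, ?_, hw⟩
  rintro rfl
  rw [zero_pow (pow_pos hq.out.pos k).ne'] at hw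
  have : (⟨f, hfF⟩ : F₀) = 0 := (map_eq_zero emb).mp hw
  exact hf0 (congrArg Subtype.val this)

/-- Galois: a Galois-stable level and a `σ` preserving `O`. -/
theorem RatApprox.gal_smul {O : ValuationSubring (Fb (M * q))} {m n : ℕ} {f : Fb (M * q)}
    {S : Finset Kb} (hS : GalStable S) (σ : Kb ≃ₐ[ℚ] Kb)
    (hσO : ∀ y : Fb (M * q), gal (M * q) σ • y ∈ O ↔ y ∈ O) (h : RatApprox O m n f S) :
    RatApprox O m n (gal (M * q) σ • f) S := by
  obtain ⟨u, z, hu, hz, hu0, hzO, he⟩ := h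
  refine ⟨gal (M * q) σ • u, gal (M * q) σ • z, (hS.gal_smul_mem_FKs q (M * q) σ).mpr hu,
    (hS.gal_smul_mem_FKs q (M * q) σ).mpr hz, ?_, (hσO z).mpr hzO, ?_⟩
  · rw [Ne, smul_eq_zero_iff_eq]
    exact hu0
  · have hqq : gal (M * q) σ • ((q : ℕ) : Fb (M * q)) = q :=
      map_natCast (MulSemiringAction.toRingHom _ (Fb (M * q)) (gal (M * q) σ)) q
    have := congrArg (fun y => gal (M * q) σ • y) he
    simp only [smul_pow', smul_mul', smul_add, smul_one, hqq] at this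
    exact this

/-- `q` is a non-unit of `O1`. -/
theorem natCast_mem_nonunits_O1 (B : ValuationSubring (AlgebraicClosure ℚ))
    (hB : B.LiesOverPrime q) : (q : Fb (M * q)) ∈ (O1 M B hB).nonunits := by
  have h := (Fermat.Agent.BR.Separate.algebraMap_mem_nonunits_O1_iff (M := M) B hB (q : Kb)).mpr hB
  rwa [map_natCast] at h

/-- `q` is a non-unit of `O2`. -/
theorem natCast_mem_nonunits_O2 (B : ValuationSubring (AlgebraicClosure ℚ))
    (hB : B.LiesOverPrime q) (hqM : ¬ q ∣ M) : (q : Fb (M * q)) ∈ (O2 B hB hqM).nonunits := by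
  have h := (Fermat.Agent.BR.Separate.algebraMap_mem_nonunits_O2_iff hqM B hB (q : Kb)).mpr hB
  rwa [map_natCast] at h

/-- INDEPENDENCE OF THE REPRESENTATIVE: `ApproxPow` passes to every representative of the same
class (in particular to the smooth-supported ones of `FrobDiff.exists_rep_of_isTor`). -/
theorem ApproxPow.of_isRep {O : ValuationSubring (Fb (M * q))} {m : ℕ}
    {x : Pic0 Kb (Fb (M * q))} {D D' : Divisor.degZero (K := Kb) (F := Fb (M * q))}
    {f f' : Fb (M * q)} (h : BR2.Filt.IsRep m x D f) (h' : BR2.Filt.IsRep m x D' f')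
    (ha : ApproxPow (M := M) (q := q) O m f) : ApproxPow (M := M) (q := q) O m f' := by
  obtain ⟨hx, hf, hD⟩ := h
  obtain ⟨hx', hf', hD'⟩ := h'
  -- `D' - D = div h`
  have h1 : Pic0.mk (D' - D) = 0 := by
    have : Pic0.mk (D' - D) = Pic0.mk D' - Pic0.mk D := rfl
    rw [this, hx, hx', sub_self]
  have h2 := (QuotientAddGroup.eq_zero_iff _).mp h1
  rw [AddSubgroup.mem_addSubgroupOf] at h2
  obtain ⟨g, hg, hgD⟩ := h2
  -- `f' / (f * g ^ m)` has no zeros and no poles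
  have hfg : f * g ^ m ≠ 0 := mul_ne_zero hf (pow_ne_zero _ hg)
  have hord : ∀ P : Place Kb (Fb (M * q)), 0 ≤ P.ord (f' * (f * g ^ m)⁻¹) := by
    intro P
    rw [P.ord_mul hf' (inv_ne_zero hfg), P.ord_inv, P.ord_mul hf (pow_ne_zero _ hg),
      ← zpow_natCast, Place.ord_zpow, ← hD P, ← hD' P, ← hgD P]
    have e : ((D' - D : Divisor.degZero (K := Kb) (F := Fb (M * q))) : Divisor Kb (Fb (M * q))) P =
        (D' : Divisor Kb (Fb (M * q))) P - (D : Divisor Kb (Fb (M * q))) P := by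
      rw [AddSubgroup.coe_sub, Finsupp.sub_apply]
    rw [e]
    simp only [Finsupp.smul_apply, nsmul_eq_mul]
    apply le_of_eq
    ring
  obtain ⟨a, ha'⟩ := Fermat.Agent.Red.exists_const_of_forall_ord_nonneg
    (Fermat.Agent.Val.riemannPkg_bar (M * q)) hord
  have ha0 : a ≠ 0 := by
    rintro rfl
    rw [map_zero] at ha'
    exact mul_ne_zero hf' (inv_ne_zero hfg) ha'
  have hf'eq : f' = algebraMap Kb (Fb (M * q)) a * (f * g ^ m) := by
    rw [← ha', mul_assoc, inv_mul_cancel₀ hfg, mul_one]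
  intro n
  obtain ⟨c, u, hc, hu, z, hz, he⟩ := ha n
  refine ⟨a * c, u * g, mul_ne_zero ha0 hc, mul_ne_zero hu hg, z, hz, ?_⟩
  have e1 : (a * c) • (u * g) ^ m = algebraMap Kb (Fb (M * q)) a * ((c • u ^ m) * g ^ m) := by
    rw [mul_pow, mul_smul, Algebra.smul_def a, smul_mul_assoc]
  rw [e1, he, hf'eq]
  ring

end Fermat.Agent.FF3.LevelDesc
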