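import Mathlib
import Fermat.Agent.FF3.LevelDesc.Bridge
import Fermat.Agent.BR3.TorGlue

/-!
# PROGRAMME I, node LEVEL-DESC (helper14), part 4: good representatives at a finite level

What Step B (D-B2 / D-B4, finding #1751 §3) consumes, for a semistable setup `S` of `F̄_{Mq}` over
`(ℚ̄, B)` with the moving lemma `TorGlue.TorGood S m` of main:

* `exists_good_unit_rep` : a class `x` of the toric part `torSub S m` which is in `tor#` (one
  representative with `ApproxPow (S.O v) m` on every component `v`) has a GOOD representative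
  `(D, f, u)` (`TorGlue.IsGood`: `D` smooth-supported, `div u_v = push D v`, residues `c u_v ^ m`)
  such that `f` is a UNIT on every component and `ApproxPow (S.O v) m f` for every `v`
  (`ApproxPow.of_isRep` + `SS.exists_smul_resF_ne_zero`);
* `exists_level_of_approxPow_family` : level descent for a finite family of valuation subrings
  (Galois-stable cofinal levels, primitive `m`-th root of unity, `RatApprox` on every component);
* `RatApprox.exists_unit_root` : for `f` a unit of `O` the exact root lies in `Oh` and is a unit: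
  `y ^ (q^k) = emb f` with `y : Ohˣ`.
-/

set_option autoImplicit false
set_option linter.unusedSectionVars false
set_option linter.style.haveILetI false
set_option synthInstance.maxHeartbeats 400000

noncomputable section

namespace Fermat.Agent.FF3.LevelDesc

open AlgebraicCurve ModularCurve IsLocalRing Fermat.Agent.X0 Fermat.Agent.BR.Inst.Levels
  Fermat.Agent.BR.Inst.FKCover Fermat.Agent.Red Fermat.Agent.Red.NormalForm
  Fermat.Agent.BR.SS Fermat.Agent.BR2.Filt Fermat.Agent.BR3.TorGlue Fermat.Agent.FF3.StepA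

section Generic

variable {K F k : Type*} [Field K] [Field F] [Algebra K F] [Field k]
  {A : ValuationSubring K} {π : A →+* k} {ι : Type*} {Ft : ι → Type*}
  [∀ v, Field (Ft v)] [∀ v, Algebra k (Ft v)] {ν : Type*}
  {S : SemistableSetup (F := F) A π ι Ft ν}

/-- a residue of `f` is a residue of every nonzero constant multiple of `f` -/
theorem isResidue_const_smul {v : ι} {f : F} {g : Ft v} (h : IsResidue S v f g) {a : K}
    (ha : a ≠ 0) : IsResidue S v (a • f) g := by
  obtain ⟨hg, c, hc, hm, hr⟩ := h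
  have e : (c * a⁻¹) • (a • f) = c • f := by
    rw [smul_smul, mul_assoc, inv_mul_cancel₀ ha, mul_one]
  refine ⟨hg, c * a⁻¹, mul_ne_zero hc (inv_ne_zero ha), by rw [e]; exact hm, ?_⟩
  have : (⟨(c * a⁻¹) • (a • f), by rw [e]; exact hm⟩ : S.O v) = ⟨c • f, hm⟩ := Subtype.ext e
  rw [this, hr]

theorem isRep_const_smul {m : ℕ} {x : Pic0 K F} {D : Divisor.degZero (K := K) (F := F)} {f : F}
    (h : IsRep m x D f) {a : K} (ha : a ≠ 0) : IsRep m x D (a • f) := by
  obtain ⟨hx, hf, hD⟩ := h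
  refine ⟨hx, ?_, fun P => ?_⟩
  · rw [Algebra.smul_def]
    exact mul_ne_zero ((map_ne_zero _).mpr ha) hf
  · rw [ord_const_smul P ha, hD P]

theorem isGood_const_smul {m : ℕ} {x : Pic0 K F} {D : Divisor.degZero (K := K) (F := F)} {f : F}
    {u : ∀ v, Ft v} (h : IsGood S m x D f u) {a : K} (ha : a ≠ 0) :
    IsGood S m x D (a • f) u where
  isRep := isRep_const_smul h.isRep ha
  smooth := h.smooth
  u_ne := h.u_ne
  ord_u := h.ord_u
  res := fun v => by
    obtain ⟨c, hc, hres⟩ := h.res v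
    exact ⟨c, hc, isResidue_const_smul hres ha⟩

end Generic

variable {M q : ℕ} [NeZero M] [hq : Fact q.Prime]

theorem approxPow_const_smul {O : ValuationSubring (Fb (M * q))} {m : ℕ} {f : Fb (M * q)}
    (h : ApproxPow (M := M) (q := q) O m f) {a : Kb} (ha : a ≠ 0) :
    ApproxPow (M := M) (q := q) O m (a • f) := by
  intro n
  obtain ⟨c, u, hc, hu, z, hz, he⟩ := h n
  refine ⟨a * c, u, mul_ne_zero ha hc, hu, z, hz, ?_⟩
  rw [mul_smul, he, smul_mul_assoc]

section Setup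

variable {k : Type*} [Field k] {B : ValuationSubring Kb} {π : B →+* k} {ι : Type*}
  {Ft : ι → Type*} [∀ v, Field (Ft v)] [∀ v, Algebra k (Ft v)] {ν : Type*}
  (S : SemistableSetup (F := Fb (M * q)) B π ι Ft ν)

/-- **GOOD UNIT REPRESENTATIVES.**  A class of `torSub S m` which is in `tor#` has a good
representative `(D, f, u)` with `f` a unit on every component and `ApproxPow` on every
component. -/
theorem exists_good_unit_rep [Finite ι] (hFt : ∀ v, RiemannPkg k (Ft v)) {m : ℕ}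
    (hTG : TorGood S m) {x : Pic0 Kb (Fb (M * q))} (hx : x ∈ torSub S m)
    (hA : ∃ (D : Divisor.degZero (K := Kb) (F := Fb (M * q))) (f : Fb (M * q)),
      IsRep m x D f ∧ ∀ v, ApproxPow (M := M) (q := q) (S.O v) m f) :
    ∃ (D : Divisor.degZero (K := Kb) (F := Fb (M * q))) (f : Fb (M * q)) (u : ∀ v, Ft v),
      IsGood S m x D f u ∧ (∀ v, f ∈ S.O v ∧ f ∉ (S.O v).nonunits) ∧
        ∀ v, ApproxPow (M := M) (q := q) (S.O v) m f := by
  have hF : RiemannPkg Kb (Fb (M * q)) := Fermat.Agent.Val.riemannPkg_bar (M * q)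
  obtain ⟨D', f', hR', hA'⟩ := hA
  obtain ⟨D, f₀, u, hgood⟩ := hTG x hx
  have hA₀ : ∀ v, ApproxPow (M := M) (q := q) (S.O v) m f₀ := fun v =>
    ApproxPow.of_isRep hR' hgood.isRep (hA' v)
  have hdeg : ∀ v, Divisor.degree (S.push (D : Divisor Kb (Fb (M * q))) v) = 0 := by
    intro v
    haveI := (hFt v).principal
    have : divOf k (u v) = S.push (D : Divisor Kb (Fb (M * q))) v :=
      divOf_eq_of_forall fun Q => (hgood.ord_u v Q).symm
    rw [← this, degree_divOf]
  obtain ⟨c, hc, hmem, hres⟩ := S.exists_smul_resF_ne_zero hF hFt hgood.smooth hdeg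
    hgood.isRep.2.1 hgood.isRep.2.2
  refine ⟨D, c • f₀, u, isGood_const_smul hgood hc, fun v => ?_, fun v =>
    approxPow_const_smul (hA₀ v) hc⟩
  have hv := S.mem_O_of_mem_Oall hmem v
  refine ⟨hv, fun hnu => hres v ?_⟩
  rw [S.resF_of_mem hv, S.res_eq_zero_iff]
  exact (ValuationSubring.coe_mem_nonunits_iff (a := (⟨c • f₀, hv⟩ : S.O v))).mp hnu

end Setup

/-- LEVEL DESCENT of `ApproxPow` for a finite family of valuation subrings, at ONE precision
`n`. -/
theorem exists_level_of_approxPow_family {ι : Type*} [Finite ι]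
    (O : ι → ValuationSubring (Fb (M * q))) {m : ℕ} (hm : 0 < m) {f : Fb (M * q)}
    (h : ∀ v, ApproxPow (M := M) (q := q) (O v) m f) (n : ℕ) (S₀ : Finset Kb) :
    ∃ L : Finset Kb, S₀ ⊆ L ∧ GalStable L ∧ ∀ L' : Finset Kb, L ⊆ L' →
      f ∈ FKs (M * q) (KS q L') ∧ (∃ ζ ∈ KS q L', IsPrimitiveRoot ζ m) ∧
        ∀ v, RatApprox (O v) m n f L' := by
  classical
  haveI := Fintype.ofFinite ι
  choose c u hc hu z hz he using fun v => h v n
  obtain ⟨L, hL₀, hgal, hL⟩ := exists_level (M * q) q hm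
    ({f} ∪ Finset.univ.image u ∪ Finset.univ.image z : Finset (Fb (M * q)))
    (Finset.univ.image c : Finset Kb) S₀
  refine ⟨L, hL₀, hgal, fun L' hL' => ?_⟩
  obtain ⟨hT, hζ, hroots⟩ := hL L' hL'
  have hfF : f ∈ FKs (M * q) (KS q L') := hT (by simp)
  have huF : ∀ v, u v ∈ FKs (M * q) (KS q L') := fun v => hT (by simp)
  have hzF : ∀ v, z v ∈ FKs (M * q) (KS q L') := fun v => hT (by simp)
  refine ⟨hfF, hζ, fun v => ?_⟩
  obtain ⟨r, hr, hrc⟩ := hroots (c v) (Finset.mem_image_of_mem c (Finset.mem_univ v))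
  have hr0 : r ≠ 0 := by
    rintro rfl
    rw [zero_pow hm.ne'] at hrc
    exact hc v hrc.symm
  refine ⟨algebraMap Kb (Fb (M * q)) r * u v, z v, ?_, hzF v, ?_, hz v, ?_⟩
  · exact mul_mem (Subfield.subset_closure (Or.inl ⟨r, hr, rfl⟩)) (huF v)
  · exact mul_ne_zero ((map_ne_zero _).mpr hr0) (hu v)
  · rw [mul_pow, ← map_pow, hrc, ← Algebra.smul_def, he v]

/-- **EXACT UNIT ROOTS IN THE COMPLETIONS.**  As `RatApprox.exists_root`, for `f` a unit of `O`:
the root is a unit of `Oh`. -/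
theorem RatApprox.exists_unit_root {O : ValuationSubring (Fb (M * q))} {k n : ℕ}
    (hn : 2 * k < n) {f : Fb (M * q)} {S : Finset Kb} (h : RatApprox O (q ^ k) n f S)
    (hq1 : (q : Fb (M * q)) ∈ O.nonunits)
    (F₀ : Subfield (Fb (M * q))) (hF₀ : FKs (M * q) (KS q S) ≤ F₀)
    {Lh : Type*} [Field Lh] {Oh : ValuationSubring Lh} {wh : Oh} (hOh : IsAdicDVR Oh wh)
    (emb : F₀ →+* Lh) (emb_mem_iff : ∀ x : F₀, emb x ∈ Oh ↔ (x : Fb (M * q)) ∈ O)
    (hfF : f ∈ F₀) (hfO : f ∈ O) (hfu : f ∉ O.nonunits) :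
    ∃ y : Ohˣ, ((y : Oh) : Lh) ^ (q ^ k) = emb ⟨f, hfF⟩ := by
  obtain ⟨w, hw0, hw⟩ := h.exists_root hn hq1 F₀ hF₀ hOh emb emb_mem_iff hfF
  have hm : q ^ k ≠ 0 := (pow_pos hq.out.pos k).ne'
  have hf0 : f ≠ 0 := h.ne_zero
  -- `w ∈ Oh`
  have h1 : emb ⟨f, hfF⟩ ∈ Oh := (emb_mem_iff _).mpr hfO
  have hwO : w ∈ Oh := by
    rw [← Oh.valuation_le_one_iff] at h1 ⊢
    rw [hw, map_pow] at h1
    exact (pow_le_one_iff_of_nonneg zero_le hm).mp h1
  -- `w⁻¹ ∈ Oh`
  have hfinv : f⁻¹ ∈ O := Fermat.Agent.BR.TwoVal.inv_mem_of_notMem_nonunits O hfu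
  have h2 : emb (⟨f, hfF⟩ : F₀)⁻¹ ∈ Oh := by
    rw [emb_mem_iff]
    exact hfinv
  have hwinvO : w⁻¹ ∈ Oh := by
    rw [← Oh.valuation_le_one_iff] at h2 ⊢
    rw [map_inv₀, hw, ← inv_pow, map_pow] at h2
    exact (pow_le_one_iff_of_nonneg zero_le hm).mp h2
  refine ⟨⟨⟨w, hwO⟩, ⟨w⁻¹, hwinvO⟩, ?_, ?_⟩, hw.symm⟩
  · exact Subtype.ext (mul_inv_cancel₀ hw0)
  · exact Subtype.ext (inv_mul_cancel₀ hw0)

end Fermat.Agent.FF3.LevelDesc
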