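import Mathlib
import Fermat.Agent.FF3.LevelDesc.Good
import Fermat.Agent.FF3.DVCompl.API

/-!
# PROGRAMME I, node LEVEL-DESC (helper14), part 5: the instance at L13 (helper16's `DVCompl`)

* `isAdicDVR_dvCompl` : `IsAdicDVR D.Oh D.wh` for every `D : DVCompl.Datum F₀` (helper16's literal);
* `RatApprox.exists_unit_root_dvCompl` : `RatApprox.exists_unit_root` at a `DVCompl.Datum` of a level
  field `F₀ ⊇ F_S` whose valuation ring is `O ∩ F₀`: the exact root `y : D.Ohˣ`,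
  `y ^ (q^k) = D.emb f`.
-/

set_option autoImplicit false
set_option linter.unusedSectionVars false

noncomputable section

namespace Fermat.Agent.FF3.LevelDesc

open AlgebraicCurve ModularCurve Fermat.Agent.X0 Fermat.Agent.BR.Inst.Levels
  Fermat.Agent.BR.Inst.FKCover

/-- the valuation ring of the DV-completion (L13) is an adic DVR in the sense of `Newton.lean` -/
theorem isAdicDVR_dvCompl {F₀ : Type*} [Field F₀] (D : Fermat.Agent.FF3.DVCompl.Datum F₀) :
    IsAdicDVR D.Oh D.wh :=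
  ⟨fun _ hx => D.wh_dvd_of_not_isUnit hx, D.exists_limit,
    fun _ hx => D.eq_zero_of_forall_wh_pow_dvd hx⟩

variable {M q : ℕ} [NeZero M] [hq : Fact q.Prime]

/-- **EXACT UNIT ROOTS IN THE DV-COMPLETION** of a level field `F₀ ⊇ F_S` at `O`. -/
theorem RatApprox.exists_unit_root_dvCompl {O : ValuationSubring (Fb (M * q))} {k n : ℕ}
    (hn : 2 * k < n) {f : Fb (M * q)} {S : Finset Kb} (h : RatApprox O (q ^ k) n f S)
    (hq1 : (q : Fb (M * q)) ∈ O.nonunits)
    (F₀ : Subfield (Fb (M * q))) (hF₀ : FKs (M * q) (KS q S) ≤ F₀)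
    (D : Fermat.Agent.FF3.DVCompl.Datum F₀) (hD : ∀ x : F₀, x ∈ D.O₀ ↔ (x : Fb (M * q)) ∈ O)
    (hfF : f ∈ F₀) (hfO : f ∈ O) (hfu : f ∉ O.nonunits) :
    ∃ y : D.Ohˣ, ((y : D.Oh) : D.Lh) ^ (q ^ k) = D.emb ⟨f, hfF⟩ :=
  h.exists_unit_root hn hq1 F₀ hF₀ (isAdicDVR_dvCompl D) D.emb
    (fun x => (D.emb_mem_iff x).trans (hD x)) hfF hfO hfu

end Fermat.Agent.FF3.LevelDesc
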