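import Mathlib
import Fermat.Agent.FF3.LevelDesc.Good
import Fermat.Agent.BR.S0.RedModularInst

/-!
# PROGRAMME I, node LEVEL-DESC (helper14), part 4': the two-component modular setup

`I : TwoCompInput` of `F̄_{Mq}` over `(ℚ̄, B)` with `I.C = compW B hB hqM` (components `O1`, `O2`),
`TorGood I.toSetup (q^k)` (main: `BR3/SDD/Geo.torGood_setup`).

* `exists_approxPow_of_isTorSharpApprox` : `IsTorSharpApprox` in the vocabulary of the setup;
* `exists_good_level_modular` : **`tor#` at a finite level, final form**: for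
  `x ∈ torSub I.toSetup (q^k)` in `tor#` there is a good representative `(D, f, u)` with `f` a unit
  of `O1` and of `O2`, and for every precision `n` and start level `S₀` a Galois-stable level `L`
  such that over every `L' ⊇ L`: `f` is rational, `μ_{q^k}` is rational and
  `RatApprox O1 (q^k) n f L'`, `RatApprox O2 (q^k) n f L'` (then `RatApprox.exists_unit_root`
  gives the exact roots in the completions).
-/

set_option autoImplicit false
set_option linter.unusedSectionVars false
set_option synthInstance.maxHeartbeats 400000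

noncomputable section

namespace Fermat.Agent.FF3.LevelDesc

open AlgebraicCurve ModularCurve IsLocalRing Fermat.Agent.X0 Fermat.Agent.BR.Inst.Levels
  Fermat.Agent.BR.Inst.FKCover Fermat.Agent.Red Fermat.Agent.BR.SS Fermat.Agent.BR2.Filt
  Fermat.Agent.BR3.TorGlue Fermat.Agent.FF3.StepA Fermat.Agent.BR.S0 Fermat.Agent.BR.TwoVal
  Fermat.Agent.BR.S0.RedModular

variable {M q : ℕ} [NeZero M] [hq : Fact q.Prime]
  {B : ValuationSubring (AlgebraicClosure ℚ)} [IsAlgClosed (ResidueField B)]
  [CharP (ResidueField B) q] {hB : B.LiesOverPrime q} {hqM : ¬ q ∣ M} {ν : Type*}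
  (I : TwoCompInput (F := Fb (M * q)) B (residue B)
    (modularFunctionFieldFullC (ResidueField B) M) ν)

theorem toSetup_O_zero (hC : I.C = compW B hB hqM) : I.toSetup.O 0 = O1 M B hB := by
  rw [TwoCompInput.toSetup_O, hC]
  rfl

theorem toSetup_O_one (hC : I.C = compW B hB hqM) : I.toSetup.O 1 = O2 B hB hqM := by
  rw [TwoCompInput.toSetup_O, hC]
  rfl

/-- `IsTorSharpApprox` in the vocabulary of the setup -/
theorem exists_approxPow_of_isTorSharpApprox (hC : I.C = compW B hB hqM) {m : ℕ}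
    {x : Pic0 Kb (Fb (M * q))} (hx : IsTorSharpApprox (B := B) (hB := hB) hqM m x) :
    ∃ (D : Divisor.degZero (K := Kb) (F := Fb (M * q))) (f : Fb (M * q)),
      IsRep m x D f ∧ ∀ v, ApproxPow (M := M) (q := q) (I.toSetup.O v) m f := by
  obtain ⟨D, f, hR, h1, h2⟩ := hx
  refine ⟨D, f, hR, fun v => ?_⟩
  rcases TwoCompInput.fin2_eq_zero_or_one v with rfl | rfl
  · rw [toSetup_O_zero I hC]
    exact h1
  · rw [toSetup_O_one I hC]
    exact h2

set_option maxHeartbeats 1000000 in
/-- **`tor#` AT A FINITE LEVEL, FINAL FORM** (finding #1751 §3). -/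
theorem exists_good_level_modular (hC : I.C = compW B hB hqM)
    (hFt : RiemannPkg (ResidueField B) (modularFunctionFieldFullC (ResidueField B) M)) (k : ℕ)
    (hTG : TorGood I.toSetup (q ^ k)) {x : Pic0 Kb (Fb (M * q))}
    (hx : x ∈ torSub I.toSetup (q ^ k))
    (hx' : IsTorSharpApprox (B := B) (hB := hB) hqM (q ^ k) x) :
    ∃ (D : Divisor.degZero (K := Kb) (F := Fb (M * q))) (f : Fb (M * q))
      (u : ∀ v : Fin 2, (fun _ : Fin 2 => modularFunctionFieldFullC (ResidueField B) M) v),
      IsGood I.toSetup (q ^ k) x D f u ∧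
      (f ∈ O1 M B hB ∧ f ∉ (O1 M B hB).nonunits) ∧
      (f ∈ O2 B hB hqM ∧ f ∉ (O2 B hB hqM).nonunits) ∧
      ∀ (n : ℕ) (S₀ : Finset Kb), ∃ L : Finset Kb, S₀ ⊆ L ∧ GalStable L ∧
        ∀ L' : Finset Kb, L ⊆ L' →
          f ∈ FKs (M * q) (KS q L') ∧ (∃ ζ ∈ KS q L', IsPrimitiveRoot ζ (q ^ k)) ∧
            RatApprox (O1 M B hB) (q ^ k) n f L' ∧ RatApprox (O2 B hB hqM) (q ^ k) n f L' := by
  have hA₀ := exists_approxPow_of_isTorSharpApprox I hC hx'
  have key := exists_good_unit_rep (M := M) (q := q) (k := ResidueField B) (B := B)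
    (π := residue B) (ι := Fin 2) (Ft := fun _ => modularFunctionFieldFullC (ResidueField B) M)
    (ν := ν) I.toSetup (fun _ => hFt) (m := q ^ k) hTG (x := x) hx hA₀
  obtain ⟨D, f, u, hgood, hunit, hA⟩ := key
  refine ⟨D, f, u, hgood, ?_, ?_, fun n S₀ => ?_⟩
  · have := hunit 0
    rwa [toSetup_O_zero I hC] at this
  · have := hunit 1
    rwa [toSetup_O_one I hC] at this
  · obtain ⟨L, hL₀, hgal, hL⟩ := exists_level_of_approxPow_family (fun v => I.toSetup.O v)
      (pow_pos hq.out.pos k) hA n S₀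
    refine ⟨L, hL₀, hgal, fun L' hL' => ?_⟩
    obtain ⟨hf, hζ, hR⟩ := hL L' hL'
    refine ⟨hf, hζ, ?_, ?_⟩
    · have := hR 0
      rwa [toSetup_O_zero I hC] at this
    · have := hR 1
      rwa [toSetup_O_one I hC] at this

end Fermat.Agent.FF3.LevelDesc
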