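import Mathlib
import Fermat.Agent.FF3.LevelDesc.DVComplInst
import Fermat.Agent.FF3.LevelDesc.GoodModular
import Fermat.Agent.FF3.ExpPackComp.Pack

/-!
# PROGRAMME I, node LEVEL-DESC (helper14), part 7: the exact unit roots in helper21's `compPack`

`exists_roots_compPack` : for `f` rational over the level `L`, a unit of `O1` and of `O2`, with
`RatApprox O1 (q^k) n f L`, `RatApprox O2 (q^k) n f L`, `n > 2k`: a family `y v` of UNITS of
`(compPack B hB hqM I hC L).Oh v` with `y v ^ (q^k) = ⟨emb v f, _⟩` — literally the inputs `y`, `hy`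
of helper22's `B4.ExpPack.principal_of_roots` / `mem_sec_neg_of_roots` (component part
`compPack`, helper21's `FF3/ExpPackComp`).
-/

set_option autoImplicit false
set_option linter.unusedSectionVars false
set_option synthInstance.maxHeartbeats 400000

noncomputable section

namespace Fermat.Agent.FF3.LevelDesc

open AlgebraicCurve ModularCurve IsLocalRing Fermat.Agent.X0 Fermat.Agent.BR.Inst.Levels
  Fermat.Agent.BR.Inst.FKCover Fermat.Agent.BR.S0 Fermat.Agent.BR.TwoVal
  Fermat.Agent.BR.S0.RedModular Fermat.Agent.FF3.ExpPackComp Fermat.Agent.FF3.B4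

variable {M q : ℕ} [NeZero M] [hq : Fact q.Prime]
variable (B : ValuationSubring Kb) (hB : B.LiesOverPrime q) (hqM : ¬ q ∣ M)

/-- the exact unit root on the component `∞` -/
theorem exists_root_datumO1 {k n : ℕ} (hn : 2 * k < n) {L : Finset Kb}
    (f : FKs (M * q) (KS q L))
    (h : RatApprox (O1 M B hB) (q ^ k) n (f : Fb (M * q)) L)
    (hfO : (f : Fb (M * q)) ∈ O1 M B hB)
    (hfu : (f : Fb (M * q)) ∉ (O1 M B hB).nonunits) :
    ∃ y : ((datumO1 (M := M) B hB L).Oh)ˣ,
      (((y : (datumO1 (M := M) B hB L).Oh) : (datumO1 (M := M) B hB L).Lh)) ^ (q ^ k) =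
        (datumO1 (M := M) B hB L).emb f :=
  h.exists_unit_root_dvCompl hn (natCast_mem_nonunits_O1 B hB) (FKs (M * q) (KS q L)) le_rfl
    (datumO1 (M := M) B hB L) (fun x => mem_datumO1_O₀_iff B hB L x) f.2 hfO hfu

/-- the exact unit root on the component `0` -/
theorem exists_root_datumO2 {k n : ℕ} (hn : 2 * k < n) {L : Finset Kb}
    (f : FKs (M * q) (KS q L))
    (h : RatApprox (O2 B hB hqM) (q ^ k) n (f : Fb (M * q)) L)
    (hfO : (f : Fb (M * q)) ∈ O2 B hB hqM)
    (hfu : (f : Fb (M * q)) ∉ (O2 B hB hqM).nonunits) :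
    ∃ y : ((datumO2 B hB hqM L).Oh)ˣ,
      (((y : (datumO2 B hB hqM L).Oh) : (datumO2 B hB hqM L).Lh)) ^ (q ^ k) =
        (datumO2 B hB hqM L).emb f :=
  h.exists_unit_root_dvCompl hn (natCast_mem_nonunits_O2 B hB hqM) (FKs (M * q) (KS q L)) le_rfl
    (datumO2 B hB hqM L) (fun x => mem_datumO2_O₀_iff B hB hqM L x) f.2 hfO hfu

/-- the exact unit root on the component `v` -/
theorem exists_root_datum {k n : ℕ} (hn : 2 * k < n) {L : Finset Kb}
    (f : FKs (M * q) (KS q L))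
    (h1 : RatApprox (O1 M B hB) (q ^ k) n (f : Fb (M * q)) L)
    (h2 : RatApprox (O2 B hB hqM) (q ^ k) n (f : Fb (M * q)) L)
    (hf1 : (f : Fb (M * q)) ∈ O1 M B hB ∧ (f : Fb (M * q)) ∉ (O1 M B hB).nonunits)
    (hf2 : (f : Fb (M * q)) ∈ O2 B hB hqM ∧ (f : Fb (M * q)) ∉ (O2 B hB hqM).nonunits)
    (v : Fin 2) :
    ∃ y : ((datum B hB hqM L v).Oh)ˣ,
      (((y : (datum B hB hqM L v).Oh) : (datum B hB hqM L v).Lh)) ^ (q ^ k) =
        (datum B hB hqM L v).emb f := by
  revert v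
  rw [Fin.forall_fin_two]
  constructor
  · rw [datum_zero]
    exact exists_root_datumO1 B hB hn f h1 hf1.1 hf1.2
  · rw [datum_one]
    exact exists_root_datumO2 B hB hqM hn f h2 hf2.1 hf2.2

section Generic

universe u₁ u₂ u₃ u₄ u₅ u₆

variable {K : Type u₁} {F : Type u₂} {k' : Type u₃} [Field K] [Field F] [Algebra K F] [Field k']
  {A : ValuationSubring K} {π : A →+* k'} {ι : Type u₄} {Ft : ι → Type u₅}
  [∀ v, Field (Ft v)] [∀ v, Algebra k' (Ft v)] {ν' : Type u₆}
  (S : Fermat.Agent.BR.SS.SemistableSetup (F := F) A π ι Ft ν') {F₀ : Subfield F} {ϖ : F₀}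

/-- root families of the data are root families of `CompPack.ofDatum` (generic repackaging) -/
theorem exists_roots_ofDatum (D : ι → Fermat.Agent.FF3.DVCompl.Datum F₀)
    (hO : ∀ v (x : F₀), x ∈ (D v).O₀ ↔ (x : F) ∈ S.O v) (hw : ∀ v, (D v).w = ϖ)
    (n : ℕ) (f : F₀)
    (h : ∀ v, ∃ y : ((D v).Oh)ˣ, (((y : (D v).Oh) : (D v).Lh)) ^ n = (D v).emb f) :
    ∃ y : ∀ v, (CompPack.ofDatum S D hO hw).Oh v, (∀ v, IsUnit (y v)) ∧
      ∀ (v : ι) (hfO : (f : F) ∈ S.O v),
        y v ^ n = ⟨(CompPack.ofDatum S D hO hw).emb v f,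
          ((CompPack.ofDatum S D hO hw).emb_mem_iff v f).2 hfO⟩ := by
  choose y hy using h
  refine ⟨fun v => (y v : (D v).Oh), fun v => (y v).isUnit, fun v hfO => ?_⟩
  apply Subtype.ext
  show ((((y v : (D v).Oh)) ^ n : (D v).Oh) : (D v).Lh) = (D v).emb f
  rw [SubmonoidClass.coe_pow]
  exact hy v

/-- **`LevelPack.adic` for `CompPack.ofDatum`**: the valuation rings of the component part built from
DV-completion data are adic DVRs with uniformiser the image of `ϖ` (the explicit element is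
`(CompPack.ofDatum S D hO hw).unif v`, and `X.unif v` for every `X : ExpPack` with this component
part, by `rfl`). -/
theorem isAdicDVR_ofDatum (D : ι → Fermat.Agent.FF3.DVCompl.Datum F₀)
    (hO : ∀ v (x : F₀), x ∈ (D v).O₀ ↔ (x : F) ∈ S.O v) (hw : ∀ v, (D v).w = ϖ) (v : ι) :
    IsAdicDVR ((CompPack.ofDatum S D hO hw).Oh v)
      ⟨(CompPack.ofDatum S D hO hw).emb v ϖ,
        ((CompPack.ofDatum S D hO hw).emb_mem_iff v ϖ).2
          ((CompPack.ofDatum S D hO hw).unif_mem v)⟩ := by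
  have h := isAdicDVR_dvCompl (D v)
  have hw' : (D v).wh = (⟨(D v).emb ϖ, ((CompPack.ofDatum S D hO hw).emb_mem_iff v ϖ).2
      ((CompPack.ofDatum S D hO hw).unif_mem v)⟩ : (D v).Oh) :=
    Subtype.ext (by rw [(D v).coe_wh, hw v])
  rw [hw'] at h
  exact h

end Generic

set_option maxHeartbeats 2000000 in
/-- **THE ROOT FAMILY in the component part of the expansion package.** -/
theorem exists_roots_compPack {ν : Type*}
    (I : TwoCompInput (F := Fb (M * q)) B (residue B)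
      (modularFunctionFieldFullC (ResidueField B) M) ν)
    (hC : I.C = compW B hB hqM) {k n : ℕ} (hn : 2 * k < n) {L : Finset Kb}
    (f : FKs (M * q) (KS q L))
    (h1 : RatApprox (O1 M B hB) (q ^ k) n (f : Fb (M * q)) L)
    (h2 : RatApprox (O2 B hB hqM) (q ^ k) n (f : Fb (M * q)) L)
    (hf1 : (f : Fb (M * q)) ∈ O1 M B hB ∧ (f : Fb (M * q)) ∉ (O1 M B hB).nonunits)
    (hf2 : (f : Fb (M * q)) ∈ O2 B hB hqM ∧ (f : Fb (M * q)) ∉ (O2 B hB hqM).nonunits) :
    ∃ y : ∀ v, (compPack B hB hqM I hC L).Oh v, (∀ v, IsUnit (y v)) ∧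
      ∀ (v : Fin 2) (hO : (f : Fb (M * q)) ∈ I.toSetup.O v),
        y v ^ (q ^ k) = ⟨(compPack B hB hqM I hC L).emb v f,
          ((compPack B hB hqM I hC L).emb_mem_iff v f).2 hO⟩ :=
  exists_roots_ofDatum I.toSetup (ϖ := unifF B hB L) (datum B hB hqM L)
    (fun v x => mem_datum_O₀_iff_setup B hB hqM I hC L v x) (fun v => datum_w B hB hqM L v)
    (q ^ k) f (exists_root_datum B hB hqM hn f h1 h2 hf1 hf2)

end Fermat.Agent.FF3.LevelDesc
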